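import Mathlib
import Fermat.Agent.S16.MF.Exp
import Fermat.Agent.S16.MF.VPSlash
import Fermat.Agent.S16.MF.VPForms
import Fermat.Prelude.Def_ModularForm_HeckeOperator

/-!
# S16 / VP / Iface (owner helper2): level raising `g(z) ↦ g(p z)`, inclusion of levels, translates

Statements FROZEN; all proofs are supplied by `MF/VPSlash.lean`, `MF/VPForms.lean` (helper21).

* `raise M p g : ModularForm (Gam (M * p)) k` for `g : ModularForm (Gam M) k`: `raise M p g z = g (p z)`;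
  `raiseOne p g : ModularForm (Gam p) k` for `g : ModularForm 𝒮ℒ k` (level one);
  `qExpansion_raise`, `qExpansion_raiseOne`: the `q`-expansion is `PowerSeries.expand p`.
* `incl d f : ModularForm (Gam (d * M)) k` for `f : ModularForm (Gam M) k`: same function.
* translates by `γ : SL(2, ℤ)` of any function `G` with `G z = g (p z)`:
  `vp_slash_of_dvd` (`p ∣ γ 1 0`), `vp_slash_of_not_dvd` (`p ∤ γ 1 0`, `p` prime), and their
  specialisations `raise_slash_of_dvd`, `raise_slash_of_not_dvd`, `raiseOne_slash_of_not_dvd`.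

Point maps are stated as `∀ z w : ℍ, (w : ℂ) = … → …`.
-/

set_option autoImplicit false

open UpperHalfPlane ModularForm CongruenceSubgroup Complex Function
open scoped MatrixGroups ModularForm Real

namespace Fermat.Agent.S16

open Fermat.Agent.S23 (Gam)

/-! ### Level raising -/

/-- `g(p z)` is a modular form of level `Γ₀(M p)` if `g` is one of level `Γ₀(M)`. -/
theorem exists_raise {M : ℕ} [NeZero M] {k : ℤ} {p : ℕ} (hp : p ≠ 0) (g : ModularForm (Gam M) k) :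
    ∃ R : ModularForm (Gam (M * p)) k, ∀ z w : ℍ, (w : ℂ) = p * z → R z = g w :=
  VPb.exists_raise hp g

/-- The form `z ↦ g (p z)` of level `Γ₀(M p)` (junk value `0` if `M = 0` or `p = 0`). -/
noncomputable def raise (M p : ℕ) {k : ℤ} (g : ModularForm (Gam M) k) :
    ModularForm (Gam (M * p)) k :=
  if h : M ≠ 0 ∧ p ≠ 0 then (haveI : NeZero M := ⟨h.1⟩; (exists_raise h.2 g).choose) else 0

theorem raise_apply {M : ℕ} [NeZero M] {k : ℤ} {p : ℕ} (hp : p ≠ 0) (g : ModularForm (Gam M) k)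
    (z w : ℍ) (h : (w : ℂ) = p * z) : raise M p g z = g w := by
  have hM : M ≠ 0 ∧ p ≠ 0 := ⟨NeZero.ne M, hp⟩
  rw [raise, dif_pos hM]
  exact (exists_raise hM.2 g).choose_spec z w h

/-- The `q`-expansion of `g(p z)`. -/
theorem qExpansion_raise {M : ℕ} [NeZero M] {k : ℤ} {p : ℕ} (hp : p ≠ 0)
    (g : ModularForm (Gam M) k) :
    qExpansion 1 (raise M p g) = PowerSeries.expand p hp (qExpansion 1 g) :=
  VPb.qExpansion_of_raise hp g _ (raise_apply hp g)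

/-- `g(p z)` is a modular form of level `Γ₀(p)` if `g` has level one. -/
theorem exists_raiseOne {k : ℤ} {p : ℕ} (hp : p ≠ 0) (g : ModularForm 𝒮ℒ k) :
    ∃ R : ModularForm (Gam p) k, ∀ z w : ℍ, (w : ℂ) = p * z → R z = g w :=
  VPb.exists_raiseOne hp g

/-- The form `z ↦ g (p z)` of level `Γ₀(p)`, for `g` of level one (junk value `0` if `p = 0`). -/
noncomputable def raiseOne (p : ℕ) {k : ℤ} (g : ModularForm 𝒮ℒ k) : ModularForm (Gam p) k :=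
  if h : p ≠ 0 then (exists_raiseOne h g).choose else 0

theorem raiseOne_apply {k : ℤ} {p : ℕ} (hp : p ≠ 0) (g : ModularForm 𝒮ℒ k)
    (z w : ℍ) (h : (w : ℂ) = p * z) : raiseOne p g z = g w := by
  rw [raiseOne, dif_pos hp]
  exact (exists_raiseOne hp g).choose_spec z w h

/-- The `q`-expansion of `g(p z)`, `g` of level one. -/
theorem qExpansion_raiseOne {k : ℤ} {p : ℕ} (hp : p ≠ 0) (g : ModularForm 𝒮ℒ k) :
    qExpansion 1 (raiseOne p g) = PowerSeries.expand p hp (qExpansion 1 g) :=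
  VPb.qExpansion_of_raiseOne hp g _ (raiseOne_apply hp g)

/-! ### Inclusion of levels -/

/-- A form of level `Γ₀(M)` is a form of level `Γ₀(d M)`. -/
theorem exists_incl (d : ℕ) {M : ℕ} {k : ℤ} (f : ModularForm (Gam M) k) :
    ∃ F : ModularForm (Gam (d * M)) k, ∀ z : ℍ, F z = f z :=
  VPb.exists_incl d f

/-- `f`, viewed as a form of level `Γ₀(d M)`. -/
noncomputable def incl (d : ℕ) {M : ℕ} {k : ℤ} (f : ModularForm (Gam M) k) :
    ModularForm (Gam (d * M)) k :=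
  (exists_incl d f).choose

theorem incl_apply (d : ℕ) {M : ℕ} {k : ℤ} (f : ModularForm (Gam M) k) (z : ℍ) :
    incl d f z = f z :=
  (exists_incl d f).choose_spec z

theorem coe_incl (d : ℕ) {M : ℕ} {k : ℤ} (f : ModularForm (Gam M) k) :
    (incl d f : ℍ → ℂ) = f :=
  funext (incl_apply d f)

theorem qExpansion_incl (d : ℕ) {M : ℕ} {k : ℤ} (f : ModularForm (Gam M) k) :
    qExpansion 1 (incl d f) = qExpansion 1 f := by
  rw [coe_incl]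

/-! ### Translates -/

/-- Translate of `G(z) = g(p z)` by `γ ∈ SL(2, ℤ)` with `p ∣ c`: `G ∣ γ (z) = (g ∣ γ') (p z)`,
`γ' = [[a, p b], [c / p, d]]`. -/
theorem vp_slash_of_dvd {p : ℕ} (hp : p ≠ 0) (k : ℤ) {g G : ℍ → ℂ}
    (hG : ∀ z w : ℍ, (w : ℂ) = p * z → G z = g w) (γ : SL(2, ℤ)) (hγ : (p : ℤ) ∣ γ 1 0) :
    ∃ γ' : SL(2, ℤ), γ' 1 0 * p = γ 1 0 ∧ γ' 0 0 = γ 0 0 ∧ γ' 1 1 = γ 1 1 ∧
      ∀ z w : ℍ, (w : ℂ) = p * z → (G ∣[k] γ) z = (g ∣[k] γ') w :=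
  VPb.vp_slash_of_dvd hp k hG γ hγ

/-- Translate of `G(z) = g(p z)` by `γ ∈ SL(2, ℤ)` with `p ∤ c` (`p` prime):
`G ∣ γ (z) = p⁻ᵏ (g ∣ γ') ((z + j) / p)` with `c j ≡ d mod p` and `γ'` of lower left entry `c`. -/
theorem vp_slash_of_not_dvd {p : ℕ} (hp : p.Prime) (k : ℤ) {g G : ℍ → ℂ}
    (hG : ∀ z w : ℍ, (w : ℂ) = p * z → G z = g w) (γ : SL(2, ℤ)) (hγ : ¬ (p : ℤ) ∣ γ 1 0) :
    ∃ (γ' : SL(2, ℤ)) (j : ℕ), j < p ∧ (p : ℤ) ∣ γ 1 1 - γ 1 0 * j ∧ γ' 1 0 = γ 1 0 ∧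
      ∀ z w : ℍ, (w : ℂ) = (z + j) / p → (G ∣[k] γ) z = (p : ℂ) ^ (-k) * (g ∣[k] γ') w :=
  VPb.vp_slash_of_not_dvd hp k hG γ hγ

theorem raise_slash_of_dvd {M : ℕ} [NeZero M] {k : ℤ} {p : ℕ} (hp : p ≠ 0)
    (g : ModularForm (Gam M) k) (γ : SL(2, ℤ)) (hγ : (p : ℤ) ∣ γ 1 0) :
    ∃ γ' : SL(2, ℤ), γ' 1 0 * p = γ 1 0 ∧
      ∀ z w : ℍ, (w : ℂ) = p * z →
        ((raise M p g : ℍ → ℂ) ∣[k] γ) z = ((g : ℍ → ℂ) ∣[k] γ') w := by
  obtain ⟨γ', h1, -, -, h2⟩ := vp_slash_of_dvd hp k (raise_apply hp g) γ hγ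
  exact ⟨γ', h1, h2⟩

theorem raise_slash_of_not_dvd {M : ℕ} [NeZero M] {k : ℤ} {p : ℕ} (hp : p.Prime)
    (g : ModularForm (Gam M) k) (γ : SL(2, ℤ)) (hγ : ¬ (p : ℤ) ∣ γ 1 0) :
    ∃ (γ' : SL(2, ℤ)) (j : ℕ), j < p ∧ γ' 1 0 = γ 1 0 ∧
      ∀ z w : ℍ, (w : ℂ) = (z + j) / p →
        ((raise M p g : ℍ → ℂ) ∣[k] γ) z = (p : ℂ) ^ (-k) * ((g : ℍ → ℂ) ∣[k] γ') w := by
  obtain ⟨γ', j, hj, -, h1, h2⟩ := vp_slash_of_not_dvd hp k (raise_apply hp.ne_zero g) γ hγ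
  exact ⟨γ', j, hj, h1, h2⟩

/-- Translates of `g(p z)` for `g` of level one and `p ∤ c`: `p⁻ᵏ g((z + j) / p)`. -/
theorem raiseOne_slash_of_not_dvd {k : ℤ} {p : ℕ} (hp : p.Prime) (g : ModularForm 𝒮ℒ k)
    (γ : SL(2, ℤ)) (hγ : ¬ (p : ℤ) ∣ γ 1 0) :
    ∃ j : ℕ, j < p ∧ ∀ z w : ℍ, (w : ℂ) = (z + j) / p →
      ((raiseOne p g : ℍ → ℂ) ∣[k] γ) z = (p : ℂ) ^ (-k) * g w := by
  obtain ⟨γ', j, hj, -, -, h2⟩ := vp_slash_of_not_dvd hp k (raiseOne_apply hp.ne_zero g) γ hγ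
  refine ⟨j, hj, fun z w hw => ?_⟩
  have hg : (g : ℍ → ℂ) ∣[k] γ' = g := by
    rw [ModularForm.SL_slash]
    exact SlashInvariantFormClass.slash_action_eq g _ (MonoidHom.mem_range.mpr ⟨γ', rfl⟩)
  rw [h2 z w hw, hg]

end Fermat.Agent.S16
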