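import Mathlib
import Fermat.Agent.S23.Defs
import Fermat.Agent.S16.MF.VPSlash

/-!
# S16 / VP / SlashNotDvd: translate of g(p z) by γ with p ∤ c (function level)
(one worker per file; the STATEMENTS are frozen by helper2 — prove them, do not change them;
auxiliary lemmas go into the namespace `Fermat.Agent.S16.VP.SlashNotDvdAux`.)
-/

set_option autoImplicit false

open UpperHalfPlane ModularForm CongruenceSubgroup Complex Function
open scoped MatrixGroups ModularForm Real Manifold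

namespace Fermat.Agent.S16.VP

/-- Translate of `G(z) = g(p z)` by `γ ∈ SL(2, ℤ)` with `p ∤ c` (`p` prime):
`G ∣ γ (z) = p⁻ᵏ (g ∣ γ') ((z + j) / p)` with `c j ≡ d mod p` and
`γ' = [[p a, b - a j], [c, (d - c j) / p]]`. -/
theorem slash_of_not_dvd {p : ℕ} (hp : p.Prime) (k : ℤ) {g G : ℍ → ℂ}
    (hG : ∀ z w : ℍ, (w : ℂ) = p * z → G z = g w) (γ : SL(2, ℤ)) (hγ : ¬ (p : ℤ) ∣ γ 1 0) :
    ∃ (γ' : SL(2, ℤ)) (j : ℕ), j < p ∧ (p : ℤ) ∣ γ 1 1 - γ 1 0 * j ∧ γ' 1 0 = γ 1 0 ∧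
      ∀ z w : ℍ, (w : ℂ) = (z + j) / p → (G ∣[k] γ) z = (p : ℂ) ^ (-k) * (g ∣[k] γ') w :=
  VPb.vp_slash_of_not_dvd hp k hG γ hγ

end Fermat.Agent.S16.VP
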