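import Mathlib
import Fermat.Agent.S23.Defs

/-!
# S16 / VP / Incl: a form of level Γ₀(M) is a form of level Γ₀(d M)
(one worker per file; the STATEMENTS are frozen by helper2 — prove them, do not change them;
auxiliary lemmas go into the namespace `Fermat.Agent.S16.VP.InclAux`.)
-/

set_option autoImplicit false

open UpperHalfPlane ModularForm CongruenceSubgroup Complex Function
open scoped MatrixGroups ModularForm Real Manifold

namespace Fermat.Agent.S16.VP

open Fermat.Agent.S23 (Gam)

/-- A form of level `Γ₀(M)` is a form of level `Γ₀(d M)`. -/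
theorem exists_incl (d : ℕ) {M : ℕ} {k : ℤ} (f : ModularForm (Gam M) k) :
    ∃ F : ModularForm (Gam (d * M)) k, ∀ z : ℍ, F z = f z := by
  have hle0 : Gamma0 (d * M) ≤ Gamma0 M := by
    intro γ hγ
    rw [CongruenceSubgroup.Gamma0_mem] at hγ ⊢
    rw [ZMod.intCast_zmod_eq_zero_iff_dvd] at hγ ⊢
    exact dvd_trans (by exact_mod_cast dvd_mul_left M d) hγ
  have hle : Gam (d * M) ≤ Gam M := Subgroup.map_mono hle0
  exact ⟨{ toFun := f
           slash_action_eq' := fun γ hγ => f.slash_action_eq' γ (hle hγ)
           holo' := f.holo'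
           bdd_at_cusps' := fun hc => f.bdd_at_cusps' (hc.mono hle) }, fun _ => rfl⟩

end Fermat.Agent.S16.VP
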