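import Mathlib
import Fermat.Agent.S23.Defs
import Fermat.Agent.S23.Prim

/-!
# S16 / VP / Raise: g(p z) has level Γ₀(M p) if g has level Γ₀(M)
(one worker per file; the STATEMENTS are frozen by helper2 — prove them, do not change them;
auxiliary lemmas go into the namespace `Fermat.Agent.S16.VP.RaiseAux`.)
-/

set_option autoImplicit false

open UpperHalfPlane ModularForm CongruenceSubgroup Complex Function
open scoped MatrixGroups ModularForm Real Manifold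

namespace Fermat.Agent.S16.VP

open Fermat.Agent.S23 (Gam)

namespace RaiseAux

open Matrix.SpecialLinearGroup
open scoped Pointwise

/-- The commutation relation `diag(N,1) * [[a,b],[N e,d]] = [[a,N b],[e,d]] * diag(N,1)`,
recording the lower left entry of the new matrix. -/
theorem heckeDiagMatrix_mul_entry {N : ℕ} (hN : N ≠ 0) (g : SL(2, ℤ)) (e : ℤ)
    (he : g 1 0 = N * e) :
    ∃ g' : SL(2, ℤ), g' 1 0 = e ∧
      heckeDiagMatrix N * mapGL ℝ g = mapGL ℝ g' * heckeDiagMatrix N := by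
  have hdet := Fermat.Agent.S23.PrimAux.det_eq g
  have hdet' : (!![g 0 0, N * g 0 1; e, g 1 1] : Matrix (Fin 2) (Fin 2) ℤ).det = 1 := by
    rw [Matrix.det_fin_two_of]
    linear_combination hdet + (g 0 1) * he
  obtain ⟨g', h00, h01, h10, h11⟩ : ∃ g' : SL(2, ℤ),
      g' 0 0 = g 0 0 ∧ g' 0 1 = N * g 0 1 ∧ g' 1 0 = e ∧ g' 1 1 = g 1 1 :=
    ⟨⟨!![g 0 0, N * g 0 1; e, g 1 1], hdet'⟩, rfl, rfl, rfl, rfl⟩
  refine ⟨g', h10, ?_⟩
  have he' := congrArg (Int.cast : ℤ → ℝ) he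
  push_cast at he'
  ext i j
  fin_cases i <;> fin_cases j <;>
    simp [hN, Matrix.mul_apply, Fin.sum_univ_two, h00, h01, h10, h11]
  all_goals first
    | linear_combination he'
    | linear_combination -he'
    | ring1

/-- For `γ ∈ Γ₀(M p)` there is `γ' ∈ Γ₀(M)` with `diag(p,1) * γ = γ' * diag(p,1)`. -/
theorem exists_mem_Gam_mul {M : ℕ} [NeZero M] {p : ℕ} (hp : p ≠ 0) {γ : GL (Fin 2) ℝ}
    (hγ : γ ∈ Gam (M * p)) :
    ∃ γ' : GL (Fin 2) ℝ, γ' ∈ Gam M ∧ heckeDiagMatrix p * γ = γ' * heckeDiagMatrix p := by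
  have : NeZero (M * p) := ⟨Nat.mul_ne_zero (NeZero.ne M) hp⟩
  obtain ⟨g, hg, rfl⟩ := hγ
  obtain ⟨e', he'⟩ : ((M * p : ℕ) : ℤ) ∣ g 1 0 :=
    (ZMod.intCast_zmod_eq_zero_iff_dvd _ _).mp (CongruenceSubgroup.Gamma0_mem.mp hg)
  have he : g 1 0 = p * ((M : ℤ) * e') := by
    rw [he']
    push_cast
    ring
  obtain ⟨g', hg'10, hmul⟩ := heckeDiagMatrix_mul_entry hp g ((M : ℤ) * e') he
  refine ⟨mapGL ℝ g', Subgroup.mem_map.mpr ⟨g', ?_, rfl⟩, hmul⟩
  rw [CongruenceSubgroup.Gamma0_mem, hg'10]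
  push_cast
  rw [ZMod.natCast_self, zero_mul]

/-- `g ∣[k] diag(p,1)` is invariant under `Γ₀(M p)`. -/
theorem slash_heckeDiag_slash {M : ℕ} [NeZero M] {k : ℤ} {p : ℕ} (hp : p ≠ 0)
    (g : ModularForm (Gam M) k) (γ : GL (Fin 2) ℝ) (hγ : γ ∈ Gam (M * p)) :
    (⇑g ∣[k] heckeDiagMatrix p) ∣[k] γ = ⇑g ∣[k] heckeDiagMatrix p := by
  obtain ⟨γ', hγ', hmul⟩ := exists_mem_Gam_mul hp hγ
  rw [← SlashAction.slash_mul, hmul, SlashAction.slash_mul,
    SlashInvariantFormClass.slash_action_eq g γ' hγ']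

/-- `Γ₀(M p)` is contained in the conjugate of `Γ₀(M)` by `diag(p,1)`. -/
theorem Gam_mul_le_conj {M : ℕ} [NeZero M] {p : ℕ} (hp : p ≠ 0) :
    Gam (M * p) ≤ (ConjAct.toConjAct (heckeDiagMatrix p)⁻¹ • Gam M : Subgroup (GL (Fin 2) ℝ)) := by
  intro γ hγ
  obtain ⟨γ', hγ', hmul⟩ := exists_mem_Gam_mul hp hγ
  rw [map_inv, Subgroup.mem_inv_pointwise_smul_iff, ConjAct.toConjAct_smul, hmul,
    mul_inv_cancel_right]
  exact hγ'

/-- The modular form `g ∣[k] diag(p,1)` of level `Γ₀(M p)`. -/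
noncomputable def raise0 {M : ℕ} [NeZero M] {k : ℤ} {p : ℕ} (hp : p ≠ 0)
    (g : ModularForm (Gam M) k) : ModularForm (Gam (M * p)) k where
  toFun := ⇑g ∣[k] heckeDiagMatrix p
  slash_action_eq' γ hγ := slash_heckeDiag_slash hp g γ hγ
  holo' := (ModularFormClass.holo g).slash k _
  bdd_at_cusps' hc :=
    (ModularForm.translate g (heckeDiagMatrix p)).bdd_at_cusps' (hc.mono (Gam_mul_le_conj hp))

theorem raise0_apply {M : ℕ} [NeZero M] {k : ℤ} {p : ℕ} (hp : p ≠ 0)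
    (g : ModularForm (Gam M) k) (z : ℍ) :
    raise0 hp g z = (p : ℂ) ^ (k - 1) * g (heckeDiagMatrix p • z) :=
  slash_heckeDiagMatrix_apply k hp (⇑g) z

end RaiseAux

/-- `g(p z)` is a modular form of level `Γ₀(M p)` if `g` is one of level `Γ₀(M)`. -/
theorem exists_raise {M : ℕ} [NeZero M] {k : ℤ} {p : ℕ} (hp : p ≠ 0) (g : ModularForm (Gam M) k) :
    ∃ R : ModularForm (Gam (M * p)) k, ∀ z w : ℍ, (w : ℂ) = p * z → R z = g w := by
  refine ⟨((p : ℂ) ^ (k - 1))⁻¹ • RaiseAux.raise0 hp g, ?_⟩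
  intro z w hw
  have hpC : (p : ℂ) ≠ 0 := Nat.cast_ne_zero.mpr hp
  have hw' : w = heckeDiagMatrix p • z := by
    apply UpperHalfPlane.ext
    rw [hw, ModularForm.coe_heckeDiagMatrix_smul hp]
  have hcoe : (⇑(((p : ℂ) ^ (k - 1))⁻¹ • RaiseAux.raise0 hp g) : ℍ → ℂ) =
      ((p : ℂ) ^ (k - 1))⁻¹ • ⇑(RaiseAux.raise0 hp g) := by
    rw [FunLike.coe_smul]
  rw [hcoe, Pi.smul_apply, RaiseAux.raise0_apply, smul_eq_mul, ← mul_assoc,
    inv_mul_cancel₀ (zpow_ne_zero _ hpC), one_mul, hw']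

end Fermat.Agent.S16.VP
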