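import Mathlib
import Fermat.Agent.S23.Defs
import Fermat.Agent.S23.Prim

/-!
# S16 / VP / RaiseOne: g(p z) has level Γ₀(p) if g has level one
(one worker per file; the STATEMENTS are frozen by helper2 — prove them, do not change them;
auxiliary lemmas go into the namespace `Fermat.Agent.S16.VP.RaiseOneAux`.)
-/

set_option autoImplicit false

open UpperHalfPlane ModularForm CongruenceSubgroup Complex Function
open scoped MatrixGroups ModularForm Real Manifold

namespace Fermat.Agent.S16.VP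

open Fermat.Agent.S23 (Gam)

namespace RaiseOneAux

open Fermat.Agent.S23.PrimAux Matrix.SpecialLinearGroup

/-- `g ∣[k] diag(p,1)` is invariant under `Γ₀(p)` if `g` has level one. -/
theorem slash_heckeDiag_slash_of_levelOne {k : ℤ} (p : ℕ) [NeZero p] (g : ModularForm 𝒮ℒ k)
    (γ : GL (Fin 2) ℝ) (hγ : γ ∈ Gam p) :
    (⇑g ∣[k] heckeDiagMatrix p) ∣[k] γ = ⇑g ∣[k] heckeDiagMatrix p := by
  obtain ⟨g', hmul⟩ := heckeDiagMatrix_mul_of_mem p hγ
  rw [← SlashAction.slash_mul, hmul, SlashAction.slash_mul,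
    SlashInvariantFormClass.slash_action_eq g _ (MonoidHom.mem_range.mpr ⟨g', rfl⟩)]

/-- The modular form `g ∣[k] diag(p,1)` of level `Γ₀(p)`. -/
theorem exists_raiseForm0 {k : ℤ} (p : ℕ) [NeZero p] (g : ModularForm 𝒮ℒ k) :
    ∃ R₀ : ModularForm (Gam p) k, (R₀ : ℍ → ℂ) = ⇑g ∣[k] heckeDiagMatrix p :=
  ⟨{ toFun := ⇑g ∣[k] heckeDiagMatrix p
     slash_action_eq' := fun γ hγ => slash_heckeDiag_slash_of_levelOne p g γ hγ
     holo' := (ModularFormClass.holo g).slash k _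
     bdd_at_cusps' := fun hc =>
       (ModularForm.translate g (heckeDiagMatrix p)).bdd_at_cusps' (hc.mono (Gam_le_conj p)) },
    rfl⟩

end RaiseOneAux

/-- `g(p z)` is a modular form of level `Γ₀(p)` if `g` has level one. -/
theorem exists_raiseOne {k : ℤ} {p : ℕ} (hp : p ≠ 0) (g : ModularForm 𝒮ℒ k) :
    ∃ R : ModularForm (Gam p) k, ∀ z w : ℍ, (w : ℂ) = p * z → R z = g w := by
  have : NeZero p := ⟨hp⟩
  obtain ⟨R₀, hR₀⟩ := RaiseOneAux.exists_raiseForm0 p g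
  refine ⟨((p : ℂ) ^ (k - 1))⁻¹ • R₀, ?_⟩
  intro z w hw
  have hpC : (p : ℂ) ≠ 0 := Nat.cast_ne_zero.mpr hp
  have hw' : w = heckeDiagMatrix p • z := by
    apply UpperHalfPlane.ext
    rw [hw, ModularForm.coe_heckeDiagMatrix_smul hp]
  have h1 : (((p : ℂ) ^ (k - 1))⁻¹ • R₀) z = ((p : ℂ) ^ (k - 1))⁻¹ * R₀ z := rfl
  have h2 : R₀ z = (⇑g ∣[k] heckeDiagMatrix p) z := by rw [← hR₀]
  rw [h1, h2, slash_heckeDiagMatrix_apply k hp, ← mul_assoc,
    inv_mul_cancel₀ (zpow_ne_zero _ hpC), one_mul, hw']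

end Fermat.Agent.S16.VP
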